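import Fermat.Agent.RogersRamanujan.Gaussian
import Mathlib.RingTheory.PowerSeries.Inverse

/-!
# Congruences of power series modulo `X ^ (d + 1)`
-/

set_option autoImplicit false

noncomputable section

open Finset
open PowerSeries (X)

namespace FA.RogersRamanujan

/-- Agreement of the coefficients up to `d`. -/
def Cong (d : ℕ) (f g : PowerSeries ℤ) : Prop := X ^ (d + 1) ∣ f - g

variable {d : ℕ} {f g h : PowerSeries ℤ}

theorem Cong.refl (d : ℕ) (f : PowerSeries ℤ) : Cong d f f := by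
  rw [Cong, sub_self]
  exact dvd_zero _

theorem Cong.symm (h1 : Cong d f g) : Cong d g f := by
  rw [Cong, ← neg_sub]
  exact dvd_neg.2 h1

theorem Cong.trans (h1 : Cong d f g) (h2 : Cong d g h) : Cong d f h := by
  rw [Cong, ← sub_add_sub_cancel f g h]
  exact dvd_add h1 h2

theorem Cong.mul_right (h1 : Cong d f g) (k : PowerSeries ℤ) : Cong d (f * k) (g * k) := by
  rw [Cong, ← sub_mul]
  exact dvd_mul_of_dvd_left h1 k

theorem Cong.mul_left (k : PowerSeries ℤ) (h1 : Cong d f g) : Cong d (k * f) (k * g) := by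
  rw [Cong, ← mul_sub]
  exact dvd_mul_of_dvd_right h1 k

theorem Cong.mul {f' g' : PowerSeries ℤ} (h1 : Cong d f g) (h2 : Cong d f' g') :
    Cong d (f * f') (g * g') :=
  (h1.mul_right f').trans (h2.mul_left g)

theorem Cong.sum {ι : Type*} {s : Finset ι} {F G : ι → PowerSeries ℤ}
    (h1 : ∀ i ∈ s, Cong d (F i) (G i)) : Cong d (∑ i ∈ s, F i) (∑ i ∈ s, G i) := by
  rw [Cong, ← sum_sub_distrib]
  exact dvd_sum h1

theorem Cong.coeff (h1 : Cong d f g) : PowerSeries.coeff d f = PowerSeries.coeff d g :=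
  sub_eq_zero.1 (by
    rw [← map_sub]
    exact PowerSeries.X_pow_dvd_iff.1 h1 d (Nat.lt_succ_self d))

theorem cong_X_pow {n : ℕ} (hn : d < n) : Cong d (X ^ n) 0 := by
  rw [Cong, sub_zero]
  exact pow_dvd_pow _ hn

theorem cong_cancel (hu : IsUnit h) (h1 : Cong d (f * h) (g * h)) : Cong d f g := by
  rw [Cong, ← sub_mul] at h1
  exact hu.dvd_mul_right.1 h1

/-- `∏ (1 - X ^ i)` over the `i ≤ n` in the class `c`. -/
def cprod (c : ℕ → Prop) [DecidablePred c] (n : ℕ) : PowerSeries ℤ :=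
  ∏ i ∈ range n, if c (i + 1) then 1 - X ^ (i + 1) else 1

variable {c : ℕ → Prop} [DecidablePred c]

theorem cong_cprod {n : ℕ} (hn : d ≤ n) : Cong d (cprod c n) (cprod c d) := by
  induction n, hn using Nat.le_induction with
  | base => exact Cong.refl d _
  | succ n hn ih =>
    rw [cprod, prod_range_succ]
    refine Cong.trans ?_ ih
    conv_rhs => rw [← mul_one (cprod c n)]
    refine Cong.mul_left _ ?_
    split_ifs
    · rw [Cong, show (1 : PowerSeries ℤ) - X ^ (n + 1) - 1 = -X ^ (n + 1) by ring]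
      exact dvd_neg.2 (pow_dvd_pow _ (by omega))
    · exact Cong.refl d _

theorem isUnit_cprod (n : ℕ) : IsUnit (cprod c n) := by
  rw [PowerSeries.isUnit_iff_constantCoeff, cprod, map_prod]
  refine isUnit_one.map (RingHom.id ℤ) |> fun h => ?_
  rw [prod_eq_one fun i _ => ?_]
  · exact isUnit_one
  · split_ifs <;> simp

theorem cong_poch {s n : ℕ} (hs : 1 ≤ s) (hn : d ≤ n) :
    Cong d (poch (X ^ s : PowerSeries ℤ) n) (poch (X ^ s : PowerSeries ℤ) d) := by
  induction n, hn using Nat.le_induction with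
  | base => exact Cong.refl d _
  | succ n hn ih =>
    rw [poch_succ]
    refine Cong.trans ?_ ih
    conv_rhs => rw [← mul_one (poch (X ^ s : PowerSeries ℤ) n)]
    refine Cong.mul_left _ ?_
    rw [Cong, show (1 : PowerSeries ℤ) - (X ^ s) ^ (n + 1) - 1 = -(X ^ s) ^ (n + 1) by ring,
      ← pow_mul]
    exact dvd_neg.2 (pow_dvd_pow _ (by
      have := Nat.le_mul_of_pos_left (n + 1) hs
      omega))

theorem isUnit_poch {s : ℕ} (hs : 1 ≤ s) (n : ℕ) : IsUnit (poch (X ^ s : PowerSeries ℤ) n) := by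
  rw [PowerSeries.isUnit_iff_constantCoeff, poch, map_prod, prod_eq_one fun i _ => ?_]
  · exact isUnit_one
  · simp [show s ≠ 0 by omega]

/-- The Gaussian coefficient tends to `1 / ((1 - q) (1 - q ^ 2) ⋯)`. -/
theorem cong_qb {s N : ℕ} {k : ℤ} (hs : 1 ≤ s) (hk : (d : ℤ) ≤ k) (hk' : k + d ≤ N) :
    Cong d (qb (X ^ s : PowerSeries ℤ) N k * poch (X ^ s) d) 1 := by
  obtain ⟨i, rfl⟩ : ∃ i : ℕ, k = i := ⟨k.toNat, by omega⟩
  obtain ⟨r, rfl⟩ : ∃ r, N = i + r := ⟨N - i, by omega⟩
  refine cong_cancel (isUnit_poch hs d) ?_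
  rw [one_mul]
  refine Cong.trans ?_ ((cong_poch (n := i + r) hs (by omega)))
  rw [← qb_mul_poch]
  exact (((cong_poch hs (by omega)).symm.mul_left _).mul (cong_poch hs (by omega)).symm)

end FA.RogersRamanujan

end
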