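import Mathlib.RingTheory.PowerSeries.Basic
import Mathlib.Tactic.LinearCombination
import Mathlib.Tactic.Ring

/-!
# Gaussian binomial coefficients

`qb q n k` is the Gaussian coefficient `[n, k]` at `q`, zero for `k` outside `[0, n]`; we prove
the two recursions, the product formula and the binomial theorem.
-/

set_option autoImplicit false

open Finset

namespace FA.RogersRamanujan

variable {R : Type*} [CommRing R]

/-- The Gaussian binomial coefficient. -/
def qb (q : R) : ℕ → ℤ → R
  | 0, k => if k = 0 then 1 else 0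
  | n + 1, k => qb q n (k - 1) + q ^ k.toNat * qb q n k

theorem qb_eq_zero (q : R) : ∀ (n : ℕ) (k : ℤ), k < 0 ∨ (n : ℤ) < k → qb q n k = 0
  | 0, k, h => by rw [qb, if_neg (by omega)]
  | n + 1, k, h => by
      rw [qb, qb_eq_zero q n (k - 1) (by omega), qb_eq_zero q n k (by omega), mul_zero, add_zero]

theorem qb_zero_right (q : R) : ∀ n : ℕ, qb q n 0 = 1
  | 0 => by rw [qb, if_pos rfl]
  | n + 1 => by
      rw [qb, qb_eq_zero q n _ (by omega), qb_zero_right q n]
      simp

theorem qb_self (q : R) : ∀ n : ℕ, qb q n n = 1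
  | 0 => by rw [Nat.cast_zero, qb, if_pos rfl]
  | n + 1 => by
      rw [qb, qb_eq_zero q n ((n + 1 : ℕ) : ℤ) (by omega), mul_zero, add_zero,
        show ((n + 1 : ℕ) : ℤ) - 1 = n by omega, qb_self q n]

/-- The second recursion. -/
theorem qb_succ' (q : R) : ∀ (n : ℕ) (k : ℤ),
    qb q (n + 1) k = q ^ ((n : ℤ) + 1 - k).toNat * qb q n (k - 1) + qb q n k
  | 0, k => by
      rcases eq_or_ne k 0 with rfl | h0
      · simp [qb]
      rcases eq_or_ne k 1 with rfl | h1
      · simp [qb]
      simp [qb, h0, sub_ne_zero.2 h1]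
  | n + 1, k => by
      rcases lt_or_ge k 1 with hk | hk
      · rcases eq_or_lt_of_le (show k ≤ 0 by omega) with rfl | hk0
        · rw [qb_zero_right, qb_eq_zero q (n + 1) ((0 : ℤ) - 1) (by omega), qb_zero_right]
          simp
        · rw [qb_eq_zero q (n + 1 + 1) k (by omega), qb_eq_zero q (n + 1) (k - 1) (by omega),
            qb_eq_zero q (n + 1) k (by omega)]
          simp
      rcases lt_or_ge ((n : ℤ) + 1) k with hkn | hkn
      · rcases eq_or_lt_of_le (show (n : ℤ) + 2 ≤ k by omega) with rfl | hk2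
        · rw [show ((n : ℤ) + 2) = ((n + 1 + 1 : ℕ) : ℤ) by push_cast; ring, qb_self,
            show ((n + 1 + 1 : ℕ) : ℤ) - 1 = ((n + 1 : ℕ) : ℤ) by push_cast; ring, qb_self,
            qb_eq_zero q (n + 1) ((n + 1 + 1 : ℕ) : ℤ) (by omega)]
          simp
        · rw [qb_eq_zero q (n + 1 + 1) k (by omega), qb_eq_zero q (n + 1) (k - 1) (by omega),
            qb_eq_zero q (n + 1) k (by omega)]
          simp
      obtain ⟨i, rfl⟩ : ∃ i : ℕ, k = (i : ℤ) + 1 := ⟨(k - 1).toNat, by omega⟩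
      obtain ⟨j, rfl⟩ : ∃ j : ℕ, n = i + j := ⟨n - i, by omega⟩
      have hd : qb q (i + j + 1 + 1) ((i : ℤ) + 1) =
          qb q (i + j + 1) i + q ^ (i + 1) * qb q (i + j + 1) ((i : ℤ) + 1) := by
        rw [qb, show (i : ℤ) + 1 - 1 = i by ring, show ((i : ℤ) + 1).toNat = i + 1 by omega]
      have a1 : qb q (i + j + 1) (i : ℤ) =
          qb q (i + j) ((i : ℤ) - 1) + q ^ i * qb q (i + j) i := by
        rw [qb, Int.toNat_natCast]
      have a2 : qb q (i + j + 1) ((i : ℤ) + 1) =
          qb q (i + j) i + q ^ (i + 1) * qb q (i + j) ((i : ℤ) + 1) := by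
        rw [qb, show (i : ℤ) + 1 - 1 = i by ring, show ((i : ℤ) + 1).toNat = i + 1 by omega]
      have b1 := qb_succ' q (i + j) (i : ℤ)
      have b2 := qb_succ' q (i + j) ((i : ℤ) + 1)
      rw [show (((i + j : ℕ) : ℤ) + 1 - (i : ℤ)).toNat = j + 1 by omega] at b1
      rw [show (i : ℤ) + 1 - 1 = i by ring,
        show (((i + j : ℕ) : ℤ) + 1 - ((i : ℤ) + 1)).toNat = j by omega] at b2
      rw [show (i : ℤ) + 1 - 1 = i by ring,
        show (((i + j + 1 : ℕ) : ℤ) + 1 - ((i : ℤ) + 1)).toNat = j + 1 by omega, hd]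
      linear_combination b1 + q ^ (i + 1) * b2 - q ^ (j + 1) * a1 - a2

/-- The `q`-Pochhammer product `(1 - q) ⋯ (1 - q ^ n)`. -/
def poch (q : R) (n : ℕ) : R := ∏ i ∈ range n, (1 - q ^ (i + 1))

theorem poch_succ (q : R) (n : ℕ) : poch q (n + 1) = poch q n * (1 - q ^ (n + 1)) :=
  prod_range_succ _ _

/-- The product formula. -/
theorem qb_mul_poch (q : R) : ∀ k r : ℕ,
    qb q (k + r) k * poch q k * poch q r = poch q (k + r)
  | 0, r => by simp [qb_zero_right, poch]
  | k + 1, 0 => by simp only [Nat.add_zero, qb_self, one_mul]; simp [poch]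
  | k + 1, r + 1 => by
      have h1 := qb_mul_poch q k (r + 1)
      have h2 := qb_mul_poch q (k + 1) r
      rw [show k + 1 + (r + 1) = k + r + 1 + 1 by omega, qb,
        show ((k + 1 : ℕ) : ℤ) - 1 = (k : ℤ) by omega, Int.toNat_natCast]
      rw [show k + (r + 1) = k + r + 1 by omega] at h1
      rw [show k + 1 + r = k + r + 1 by omega] at h2
      rw [poch_succ q r] at h1 ⊢
      rw [poch_succ q k] at h2 ⊢
      rw [poch_succ q (k + r + 1)]
      linear_combination (1 - q ^ (k + 1)) * h1 + q ^ (k + 1) * (1 - q ^ (r + 1)) * h2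

/-- **The `q`-binomial theorem.** -/
theorem prod_add_mul_pow (q A B : R) : ∀ N : ℕ,
    ∏ i ∈ range N, (A + B * q ^ i) =
      ∑ k ∈ range (N + 1), q ^ k.choose 2 * qb q N k * B ^ k * A ^ (N - k)
  | 0 => by simp [qb_zero_right]
  | N + 1 => by
      rw [prod_range_succ, prod_add_mul_pow q A B N, sum_mul]
      have hsplit : ∀ k ∈ range (N + 1 + 1),
          q ^ k.choose 2 * qb q (N + 1) k * B ^ k * A ^ (N + 1 - k)
          = q ^ k.choose 2 * qb q N k * B ^ k * A ^ (N + 1 - k) +
            q ^ k.choose 2 * (q ^ ((N : ℤ) + 1 - k).toNat * qb q N ((k : ℤ) - 1)) * B ^ k *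
              A ^ (N + 1 - k) := by
        intro k _
        rw [qb_succ' q N k]
        ring
      rw [sum_congr rfl hsplit, sum_add_distrib]
      conv_rhs =>
        arg 1
        rw [sum_range_succ, qb_eq_zero q N ((N + 1 : ℕ) : ℤ) (by omega)]
      conv_rhs =>
        arg 2
        rw [sum_range_succ', qb_eq_zero q N (((0 : ℕ) : ℤ) - 1) (by omega)]
      simp only [mul_zero, zero_mul, add_zero]
      rw [← sum_add_distrib]
      refine sum_congr rfl fun k hk => ?_
      obtain ⟨d, rfl⟩ := Nat.exists_eq_add_of_le (Nat.lt_succ_iff.1 (mem_range.1 hk))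
      rw [show k + d + 1 - k = d + 1 by omega, show k + d - k = d by omega,
        show k + d + 1 - (k + 1) = d by omega,
        show ((k + 1 : ℕ) : ℤ) - 1 = (k : ℤ) by omega,
        show (((k + d : ℕ) : ℤ) + 1 - ((k + 1 : ℕ) : ℤ)).toNat = d by omega,
        Nat.choose_succ_succ' k 1, Nat.choose_one_right]
      ring

end FA.RogersRamanujan
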