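import Fermat.Agent.RogersRamanujan.Gaussian
import Mathlib.Algebra.Field.Basic
import Mathlib.Tactic.FieldSimp

/-!
# The finite triple product over a field
-/

set_option autoImplicit false

open Finset

namespace FA.RogersRamanujan

variable {K : Type*} [Field K]

/-- **The finite triple product of Jacobi.** -/
theorem jacobi_triple_product_finite (q z : K) (hq : q ≠ 0) (hz : z ≠ 0) (L : ℕ) :
    ∏ i ∈ range L, ((1 + z * q ^ (2 * i + 1)) * (1 + z⁻¹ * q ^ (2 * i + 1))) =
      ∑ k ∈ range (2 * L + 1),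
        qb (q ^ 2) (2 * L) k * (q ^ (((k : ℤ) - L) ^ 2) * z ^ ((k : ℤ) - L)) := by
  have h := prod_add_mul_pow (q ^ 2) 1 (z * q / q ^ (2 * L)) (2 * L)
  rw [two_mul L, prod_range_add, ← two_mul, ← prod_range_reflect _ L] at h
  have hC : ∏ i ∈ range L, (z / q ^ (2 * i + 1)) = z ^ L / q ^ (L * L) := by
    clear h
    induction L with
    | zero => simp
    | succ L ih =>
      rw [prod_range_succ, ih, show (L + 1) * (L + 1) = L * L + (2 * L + 1) by ring,
        pow_succ z L, pow_add q (L * L), div_mul_div_comm]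
  have h1 : ∏ i ∈ range L, (1 + z * q / q ^ (2 * L) * (q ^ 2) ^ (L - 1 - i)) =
      z ^ L / q ^ (L * L) * ∏ i ∈ range L, (1 + z⁻¹ * q ^ (2 * i + 1)) := by
    rw [← hC, ← prod_mul_distrib]
    refine prod_congr rfl fun i hi => ?_
    obtain ⟨d, rfl⟩ := Nat.exists_eq_add_of_le (Nat.succ_le_of_lt (mem_range.1 hi))
    rw [show i + 1 + d - 1 - i = d by omega, ← pow_mul,
      show 2 * (i + 1 + d) = 2 * i + 1 + 1 + 2 * d by ring, pow_add q (2 * i + 1 + 1) (2 * d),
      pow_succ q (2 * i + 1)]
    field_simp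
    ring
  have h2 : ∏ i ∈ range L, (1 + z * q / q ^ (2 * L) * (q ^ 2) ^ (L + i)) =
      ∏ i ∈ range L, (1 + z * q ^ (2 * i + 1)) := by
    refine prod_congr rfl fun i _ => ?_
    rw [← pow_mul, show 2 * (L + i) = 2 * L + 2 * i by ring, pow_add q (2 * L), pow_succ]
    field_simp
  rw [h1, h2] at h
  have hne : z ^ L / q ^ (L * L) ≠ 0 := div_ne_zero (pow_ne_zero _ hz) (pow_ne_zero _ hq)
  refine mul_left_cancel₀ hne ?_
  rw [prod_mul_distrib, mul_comm (∏ i ∈ range L, (1 + z * q ^ (2 * i + 1))), ← mul_assoc, h,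
    mul_sum]
  refine sum_congr rfl fun k _ => ?_
  have he : (q ^ 2) ^ k.choose 2 * (z * q / q ^ (2 * L)) ^ k =
      z ^ L / q ^ (L * L) * (q ^ (((k : ℤ) - L) ^ 2) * z ^ ((k : ℤ) - L)) := by
    rw [show ((k : ℤ) - L) ^ 2 = ((2 * k.choose 2 + k + L * L : ℕ) : ℤ) - (2 * L * k : ℕ) by
        have : 2 * (k.choose 2 : ℤ) + k = k * k := by
          rename_i hk
          clear h h1 h2 hC hne hk
          induction k with
          | zero => simp
          | succ k ih =>
            rw [Nat.choose_succ_succ', Nat.choose_one_right]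
            push_cast
            linarith
        push_cast
        linarith,
      zpow_sub₀ hq, zpow_sub₀ hz, zpow_natCast, zpow_natCast, zpow_natCast, zpow_natCast,
      div_pow, mul_pow, ← pow_mul q (2 * L)]
    field_simp
    ring
  rw [one_pow, mul_one, mul_assoc, mul_left_comm, he]
  ring

end FA.RogersRamanujan
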