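import Fermat.Agent.RogersRamanujan.TripleProduct
import Mathlib.Combinatorics.Enumerative.Partition.Glaisher

/-!
# The identities of Rogers and Ramanujan
-/

set_option autoImplicit false

noncomputable section

open Finset Filter
open PowerSeries (X)
open scoped PowerSeries.WithPiTopology

namespace FA.RogersRamanujan

variable {a d : ℕ}

theorem abs_le_expo {a : ℤ} (ha : a = 0 ∨ a = 2) (j : ℤ) :
    j ≤ expo a j ∧ -j ≤ expo a j := by
  have h := two_mul_expo ha j
  rcases lt_trichotomy j 0 with hj | rfl | hj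
  · refine ⟨by omega, ?_⟩
    rcases ha with rfl | rfl <;> nlinarith
  · constructor <;> simp
  · refine ⟨?_, by omega⟩
    rcases ha with rfl | rfl <;> nlinarith

/-- The theta sum. -/
def theta (a : ℤ) (M : ℕ) : PowerSeries ℤ := ∑ i ∈ range (2 * M + 1), weight a ((M : ℤ) - i)

theorem cong_weight_mul {a : ℤ} (ha : a = 0 ∨ a = 2) (j : ℤ) {f : PowerSeries ℤ}
    (hf : -(d : ℤ) ≤ j → j ≤ d → Cong d f 1) : Cong d (weight a j * f) (weight a j) := by
  rcases le_or_gt (expo a j) d with h | h
  · have hj := abs_le_expo ha j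
    simpa only [mul_one] using (hf (by omega) (by omega)).mul_left (weight a j)
  · have h0 : Cong d (weight a j) 0 := by
      rw [weight]
      simpa only [mul_zero] using (cong_X_pow h).mul_left _
    refine Cong.trans ?_ h0.symm
    simpa only [zero_mul] using h0.mul_right f

theorem cong_closedForm {a : ℤ} (ha : a = 0 ∨ a = 2) {M : ℕ} (hM : 9 * d + 10 ≤ M) :
    Cong d (closedForm M a (M - 3) * poch X d) (theta a M) := by
  rw [closedForm, theta, sum_mul]
  refine Cong.sum fun i _ => ?_
  rw [term, mul_assoc]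
  refine cong_weight_mul ha _ fun h1 h2 => ?_
  simpa only [pow_one] using cong_qb (s := 1) (N := M - 3) (d := d) le_rfl
    (k := (((M - 3 : ℕ) : ℤ) + a - 5 * ((M : ℤ) - i)) / 2) (by omega) (by omega)

theorem cong_theta (ha : a = 0 ∨ a = 2) {M : ℕ} (hM : 2 * d ≤ M) :
    Cong d (theta (a : ℤ) M) (cprod (exc a) d) := by
  have h1 : Cong d ((∑ k ∈ range (2 * M + 1), weight (a : ℤ) ((M : ℤ) - k) *
      qb (X ^ 5 : PowerSeries ℤ) (2 * M) k) * poch (X ^ 5) d) (theta (a : ℤ) M) := by
    rw [theta, sum_mul]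
    refine Cong.sum fun i _ => ?_
    rw [mul_assoc]
    exact cong_weight_mul (by omega) _ fun h2 h3 => cong_qb (by norm_num) (by omega) (by omega)
  refine h1.symm.trans ?_
  rw [← triple_product ha M, mul_comm]
  refine ((cong_poch (n := M) (by norm_num) (by omega)).symm.mul_right _).trans ?_
  rw [poch_mul_prod ha M]
  exact cong_cprod (by omega)

theorem cprod_mul_cprod_not (c : ℕ → Prop) [DecidablePred c] (n : ℕ) :
    cprod (fun m => ¬c m) n * cprod c n = poch X n := by
  rw [cprod, cprod, ← prod_mul_distrib, poch]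
  refine prod_congr rfl fun i _ => ?_
  by_cases h : c (i + 1) <;> simp [h]

theorem cong_sparseSum {lo : ℕ} (h : lo = 1 ∧ a = 0 ∨ lo = 2 ∧ a = 2) :
    Cong d (sparseSum lo (9 * d + 6) * cprod (fun m => ¬exc a m) d) 1 := by
  refine cong_cancel (isUnit_cprod (c := exc a) d) ?_
  rw [one_mul, mul_assoc, cprod_mul_cprod_not,
    sparseSum_eq (a := (a : ℤ)) (M := 9 * d + 10) (by omega) _ (by omega)]
  exact (cong_closedForm (by omega) le_rfl).trans (cong_theta (by omega) (by omega))

theorem cong_restricted (p : ℕ → Prop) [DecidablePred p] :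
    Cong d (PowerSeries.mk (fun n => (#(Nat.Partition.restricted n p) : ℤ)) * cprod p d) 1 := by
  set F : PowerSeries ℤ := PowerSeries.mk fun n => (#(Nat.Partition.restricted n p) : ℤ)
  set G : ℕ → PowerSeries ℤ := fun i => if p (i + 1) then ∑' j : ℕ, X ^ ((i + 1) * j) else 1
  have hprod : HasProd G F := Nat.Partition.hasProd_powerSeriesMk_card_restricted ℤ p
  have hlim := (PowerSeries.WithPiTopology.tendsto_iff_coeff_tendsto _ _ _ _).1
    hprod.tendsto_prod_nat
  have hev : ∀ᶠ n in atTop, ∀ m ∈ range (d + 1),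
      PowerSeries.coeff m (∏ i ∈ range n, G i) = PowerSeries.coeff m F := by
    rw [Filter.eventually_all_finset]
    intro m _
    simpa only [nhds_discrete, tendsto_pure] using hlim m
  obtain ⟨n, hn, hdn⟩ := (hev.and (eventually_ge_atTop d)).exists
  have hF : Cong d F (∏ i ∈ range n, G i) := by
    rw [Cong, PowerSeries.X_pow_dvd_iff]
    intro m hm
    rw [map_sub, hn m (mem_range.2 hm), sub_self]
  refine (Cong.mul hF (cong_cprod hdn).symm).trans ?_
  rw [cprod, ← prod_mul_distrib, prod_eq_one fun i _ => ?_]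
  · exact Cong.refl d 1
  · simp only [G]
    split_ifs
    · simp_rw [pow_mul]
      exact PowerSeries.WithPiTopology.tsum_pow_mul_one_sub_of_constantCoeff_eq_zero (by simp)
    · rw [one_mul]

/-- The partitions with parts at least `lo` differing by at least `2` are counted by the sets
without two consecutive elements. -/
theorem card_filter_sparse {lo n N : ℕ} (hlo : 1 ≤ lo) (hN : n ≤ N) :
    #(univ.filter fun p : n.Partition => p.parts.Nodup ∧ (∀ x ∈ p.parts, lo ≤ x) ∧
      ∀ x ∈ p.parts, ∀ y ∈ p.parts, x < y → x + 2 ≤ y) =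
      #((sparseSets lo N).filter fun S => ∑ x ∈ S, x = n) := by
  refine card_bij' (fun p hp => ⟨p.parts, (mem_filter.1 hp).2.1⟩)
    (fun S hS => ⟨S.1, fun {i} hi => ?_, ?_⟩) ?_ ?_ ?_ ?_
  · have := (mem_Icc.1 (mem_powerset.1 (mem_filter.1 (mem_filter.1 hS).1).1 hi)).1
    omega
  · exact (Finset.sum_val _).trans (mem_filter.1 hS).2
  · intro p hp
    obtain ⟨-, hnd, hge, hgap⟩ := mem_filter.1 hp
    refine mem_filter.2 ⟨mem_filter.2 ⟨mem_powerset.2 fun x hx =>
      mem_Icc.2 ⟨hge x hx, (Nat.Partition.le_of_mem_parts hx).trans hN⟩, fun x hx hx1 => ?_⟩, ?_⟩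
    · have := hgap x hx (x + 1) hx1 (by omega)
      omega
    · exact (Finset.sum_val _).symm.trans p.parts_sum
  · intro S hS
    obtain ⟨hsub, hsp⟩ := mem_filter.1 (mem_filter.1 hS).1
    refine mem_filter.2 ⟨mem_univ _, S.2, fun x hx => (mem_Icc.1 (mem_powerset.1 hsub hx)).1, ?_⟩
    intro x hx y hy hxy
    by_contra hlt
    exact hsp x hx (by rw [show x + 1 = y by omega]; exact hy)
  · intro p _
    rfl
  · intro S _
    rfl

theorem card_sparse_eq {lo : ℕ} (h : lo = 1 ∧ a = 0 ∨ lo = 2 ∧ a = 2) (n : ℕ) :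
    #(univ.filter fun p : n.Partition => p.parts.Nodup ∧ (∀ x ∈ p.parts, lo ≤ x) ∧
      ∀ x ∈ p.parts, ∀ y ∈ p.parts, x < y → x + 2 ≤ y) =
      #(Nat.Partition.restricted n fun m => ¬exc a m) := by
  rw [card_filter_sparse (N := 9 * n + 6) (by omega) (by omega)]
  have hc := cong_cancel (isUnit_cprod n)
    ((cong_sparseSum (d := n) h).trans (cong_restricted (d := n) fun m => ¬exc a m).symm)
  have := hc.coeff
  rw [coeff_sparseSum, PowerSeries.coeff_mk] at this
  exact_mod_cast this

/-- **The first identity of Rogers and Ramanujan.** -/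
theorem rogers_ramanujan_one (n : ℕ) :
    #(univ.filter fun p : n.Partition => p.parts.Nodup ∧
      ∀ x ∈ p.parts, ∀ y ∈ p.parts, x < y → x + 2 ≤ y) =
      #(univ.filter fun p : n.Partition => ∀ x ∈ p.parts, x % 5 = 1 ∨ x % 5 = 4) := by
  have h := card_sparse_eq (lo := 1) (a := 0) (Or.inl ⟨rfl, rfl⟩) n
  rw [Nat.Partition.restricted] at h
  convert h using 2
  · exact filter_congr fun p _ =>
      ⟨fun hp => ⟨hp.1, fun x hx => p.parts_pos hx, hp.2⟩, fun hp => ⟨hp.1, hp.2.2⟩⟩
  · exact filter_congr fun p _ => forall₂_congr fun x _ => by omega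

/-- **The second identity of Rogers and Ramanujan.** -/
theorem rogers_ramanujan_two (n : ℕ) :
    #(univ.filter fun p : n.Partition => p.parts.Nodup ∧ (∀ x ∈ p.parts, 2 ≤ x) ∧
      ∀ x ∈ p.parts, ∀ y ∈ p.parts, x < y → x + 2 ≤ y) =
      #(univ.filter fun p : n.Partition => ∀ x ∈ p.parts, x % 5 = 2 ∨ x % 5 = 3) := by
  have h := card_sparse_eq (lo := 2) (a := 2) (Or.inr ⟨rfl, rfl⟩) n
  rw [Nat.Partition.restricted] at h
  convert h using 2
  exact filter_congr fun p _ => forall₂_congr fun x _ => by simp only [exc]; omega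

end FA.RogersRamanujan

end
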