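import Fermat.Agent.RogersRamanujan.Congruence

/-!
# The polynomials of Schur

The generating polynomial of the sets in `[lo, n]` without two consecutive elements, `lo = 1, 2`,
in closed form.
-/

set_option autoImplicit false

noncomputable section

open Finset
open PowerSeries (X)

namespace FA.RogersRamanujan

/-- The exponents `j (5 j + 1 - 2 a) / 2`. -/
def expo (a j : ℤ) : ℕ := (j * (5 * j + 1 - 2 * a) / 2).toNat

theorem two_mul_expo {a : ℤ} (ha : a = 0 ∨ a = 2) (j : ℤ) :
    2 * (expo a j : ℤ) = j * (5 * j + 1 - 2 * a) := by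
  have h0 : 0 ≤ j * (5 * j + 1 - 2 * a) := by
    rcases le_or_gt 1 j with h | h
    · exact mul_nonneg (by omega) (by rcases ha with rfl | rfl <;> omega)
    · rcases eq_or_ne j 0 with rfl | h'
      · simp
      exact mul_nonneg_of_nonpos_of_nonpos (by omega) (by rcases ha with rfl | rfl <;> omega)
  have h2 : j * (5 * j + 1 - 2 * a) % 2 = 0 := by
    rcases Int.emod_two_eq_zero_or_one j with h | h
    · rw [Int.mul_emod, h]; simp
    · rw [Int.mul_emod, show (5 * j + 1 - 2 * a) % 2 = 0 by omega]; simp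
  rw [expo, Int.toNat_of_nonneg (Int.ediv_nonneg h0 (by norm_num))]
  omega

/-- `(-1) ^ j X ^ (j (5 j + 1 - 2 a) / 2)`. -/
def weight (a j : ℤ) : PowerSeries ℤ := (if j % 2 = 0 then 1 else -1) * X ^ expo a j

/-- The `j`th term. -/
def term (a : ℤ) (N : ℕ) (j : ℤ) : PowerSeries ℤ :=
  weight a j * qb X N (((N : ℤ) + a - 5 * j) / 2)

/-- The closed form. -/
def closedForm (M : ℕ) (a : ℤ) (N : ℕ) : PowerSeries ℤ :=
  ∑ i ∈ range (2 * M + 1), term a N ((M : ℤ) - i)

/-- What telescopes. -/
def tele (a : ℤ) (N : ℕ) (j : ℤ) : PowerSeries ℤ :=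
  if ((N : ℤ) + a + j) % 2 = 0 then
    weight a j * (X ^ (((N : ℤ) + a - 5 * j) / 2 + 1).toNat *
      qb X N (((N : ℤ) + a - 5 * j) / 2 + 1))
  else 0

theorem term_step {a : ℤ} (ha : a = 0 ∨ a = 2) (N : ℕ) (j : ℤ) :
    term a (N + 2) j - term a (N + 1) j - X ^ (N + 1) * term a N j =
      tele a N j - tele a N (j + 1) := by
  rcases Int.emod_two_eq_zero_or_one ((N : ℤ) + a - 5 * j) with hev | hodd
  · obtain ⟨l, hl⟩ : ∃ l, (N : ℤ) + a - 5 * j = 2 * l := ⟨_, (Int.mul_ediv_cancel_of_emod_eq_zero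
      hev).symm⟩
    rw [tele, tele, if_pos (by omega), if_neg (by omega), sub_zero, term, term, term,
      show (((N + 2 : ℕ) : ℤ) + a - 5 * j) / 2 = l + 1 by omega,
      show (((N + 1 : ℕ) : ℤ) + a - 5 * j) / 2 = l by omega,
      show ((N : ℤ) + a - 5 * j) / 2 = l by omega]
    have h1 : qb (X : PowerSeries ℤ) (N + 2) (l + 1) =
        qb X (N + 1) l + X ^ (l + 1).toNat * qb X (N + 1) (l + 1) := by
      rw [qb, show l + 1 - 1 = l by ring]
    have h2 := qb_succ' (X : PowerSeries ℤ) N (l + 1)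
    rw [show l + 1 - 1 = l by ring] at h2
    rw [h1, h2]
    rcases lt_or_ge l 0 with hl0 | hl0
    · rw [qb_eq_zero X N l (Or.inl hl0)]
      ring
    rcases lt_or_ge (N : ℤ) l with hlN | hlN
    · rw [qb_eq_zero X N l (Or.inr hlN)]
      ring
    rw [show N + 1 = (l + 1).toNat + ((N : ℤ) + 1 - (l + 1)).toNat by omega, pow_add]
    ring
  · obtain ⟨l, hl⟩ : ∃ l, (N : ℤ) + a - 5 * j = 2 * l + 1 :=
      ⟨((N : ℤ) + a - 5 * j) / 2, by omega⟩
    rw [tele, tele, if_neg (by omega), if_pos (by omega), zero_sub, term, term, term,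
      show (((N + 2 : ℕ) : ℤ) + a - 5 * j) / 2 = l + 1 by omega,
      show (((N + 1 : ℕ) : ℤ) + a - 5 * j) / 2 = l + 1 by omega,
      show ((N : ℤ) + a - 5 * j) / 2 = l by omega,
      show ((N : ℤ) + a - 5 * (j + 1)) / 2 + 1 = l - 1 by omega,
      qb_succ' X (N + 1) (l + 1), show l + 1 - 1 = l by ring, qb]
    rcases lt_or_ge (l - 1) 0 with hl0 | hl0
    · rw [qb_eq_zero X N (l - 1) (Or.inl hl0)]
      rcases lt_or_ge l 0 with h | h
      · rw [qb_eq_zero X N l (Or.inl h)]
        ring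
      · rw [show l = 0 by omega, show (((N + 1 : ℕ) : ℤ) + 1 - (0 + 1)).toNat = N + 1 by omega,
          show (0 : ℤ).toNat = 0 from rfl]
        ring
    rcases lt_or_ge (N : ℤ) (l - 1) with hlN | hlN
    · rw [qb_eq_zero X N (l - 1) (Or.inr hlN), qb_eq_zero X N l (Or.inr (by omega))]
      ring
    have hsgn : (if (j + 1) % 2 = 0 then (1 : PowerSeries ℤ) else -1) =
        -(if j % 2 = 0 then 1 else -1) := by
      rcases Int.emod_two_eq_zero_or_one j with h | h
      · rw [if_neg (by omega), if_pos h]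
      · rw [if_pos (by omega), if_neg (by omega), neg_neg]
    have he : expo a (j + 1) + (l - 1).toNat =
        expo a j + (((N + 1 : ℕ) : ℤ) + 1 - (l + 1)).toNat := by
      have e1 := two_mul_expo ha j
      have e2 := two_mul_expo ha (j + 1)
      have e3 : (j + 1) * (5 * (j + 1) + 1 - 2 * a) =
          j * (5 * j + 1 - 2 * a) + (10 * j + 6 - 2 * a) := by ring
      omega
    rw [weight, weight, hsgn]
    have hx := congrArg (fun n => (X : PowerSeries ℤ) ^ n) he
    simp only [pow_add] at hx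
    rcases lt_or_ge (N : ℤ) l with hN | hN
    · rw [qb_eq_zero X N l (Or.inr hN)]
      linear_combination (-(if j % 2 = 0 then (1 : PowerSeries ℤ) else -1) * qb X N (l - 1)) * hx
    · rw [show N + 1 = (((N + 1 : ℕ) : ℤ) + 1 - (l + 1)).toNat + l.toNat by omega, pow_add,
        show (((N + 1 : ℕ) : ℤ) + 1 - (l + 1)).toNat + l.toNat = N + 1 by omega]
      linear_combination (-(if j % 2 = 0 then (1 : PowerSeries ℤ) else -1) * qb X N (l - 1)) * hx

theorem closedForm_step {a : ℤ} (ha : a = 0 ∨ a = 2) {M N : ℕ} (hN : N + 1 ≤ M) :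
    closedForm M a (N + 2) = closedForm M a (N + 1) + X ^ (N + 1) * closedForm M a N := by
  rw [← sub_eq_zero, ← sub_sub, closedForm, closedForm, closedForm, mul_sum, ← sum_sub_distrib,
    ← sum_sub_distrib]
  have hg : ∀ i : ℕ, term a (N + 2) ((M : ℤ) - i) - term a (N + 1) ((M : ℤ) - i) -
      X ^ (N + 1) * term a N ((M : ℤ) - i) =
      tele a N ((M : ℤ) + 1 - (i + 1 : ℕ)) - tele a N ((M : ℤ) + 1 - i) := fun i => by
    rw [term_step ha, show (M : ℤ) + 1 - (i + 1 : ℕ) = (M : ℤ) - i by push_cast; ring,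
      show (M : ℤ) + 1 - i = (M : ℤ) - i + 1 by ring]
  rw [sum_congr rfl fun i _ => hg i, sum_range_sub fun i : ℕ => tele a N ((M : ℤ) + 1 - i)]
  have h0 : ∀ j : ℤ, j = (M : ℤ) + 1 ∨ j = -(M : ℤ) → tele a N j = 0 := by
    intro j hj
    rw [tele]
    split_ifs
    · rw [qb_eq_zero X N _ (by omega), mul_zero, mul_zero]
    · rfl
  rw [h0 _ (Or.inr (by push_cast; ring)), h0 _ (Or.inl (by simp)), sub_zero]

theorem closedForm_small {a : ℤ} (ha : a = 0 ∨ a = 2) {M N : ℕ} (hN : N ≤ 2) (hN' : 1 ≤ N) :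
    closedForm M a N = qb X N (((N : ℤ) + a) / 2) := by
  rw [closedForm, sum_eq_single M]
  · simp [term, weight, expo]
  · intro i _ hi
    rw [term, qb_eq_zero X N _ (by omega), mul_zero]
  · intro h
    exact absurd (mem_range.2 (by omega)) h

/-- The sets in `[lo, n]` without two consecutive elements. -/
def sparseSets (lo n : ℕ) : Finset (Finset ℕ) :=
  (Icc lo n).powerset.filter fun S => ∀ x ∈ S, x + 1 ∉ S

/-- Their generating polynomial. -/
def sparseSum (lo n : ℕ) : PowerSeries ℤ := ∑ S ∈ sparseSets lo n, X ^ (∑ x ∈ S, x)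

theorem coeff_sparseSum (lo n d : ℕ) :
    PowerSeries.coeff d (sparseSum lo n) =
      (#((sparseSets lo n).filter fun S => ∑ x ∈ S, x = d) : ℤ) := by
  rw [sparseSum, map_sum, card_filter, Nat.cast_sum]
  refine sum_congr rfl fun S _ => ?_
  rw [PowerSeries.coeff_X_pow]
  by_cases h : ∑ x ∈ S, x = d
  · simp [h]
  · simp [h, Ne.symm h]

theorem sparseSum_step {lo N : ℕ} (hlo : lo ≤ N + 2) :
    sparseSum lo (N + 2) = sparseSum lo (N + 1) + X ^ (N + 2) * sparseSum lo N := by
  have hun : sparseSets lo (N + 2) =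
      sparseSets lo (N + 1) ∪ (sparseSets lo N).image (insert (N + 2)) := by
    ext S
    simp only [sparseSets, Finset.mem_filter, Finset.mem_powerset, Finset.mem_union,
      Finset.mem_image]
    constructor
    · rintro ⟨hS, hsp⟩
      by_cases hm : N + 2 ∈ S
      · refine Or.inr ⟨S.erase (N + 2), ⟨fun x hx => ?_, fun x hx hx1 => ?_⟩, insert_erase hm⟩
        · obtain ⟨hne, hxS⟩ := mem_erase.1 hx
          have h1 := mem_Icc.1 (hS hxS)
          have h2 : x ≠ N + 1 := fun e => hsp x hxS (by rw [e]; exact hm)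
          exact mem_Icc.2 (by omega)
        · exact hsp x (mem_erase.1 hx).2 (mem_erase.1 hx1).2
      · refine Or.inl ⟨fun x hx => ?_, hsp⟩
        have h1 := mem_Icc.1 (hS hx)
        have h2 : x ≠ N + 2 := fun e => hm (e ▸ hx)
        exact mem_Icc.2 (by omega)
    · rintro (⟨hS, hsp⟩ | ⟨T, ⟨hT, hsp⟩, rfl⟩)
      · exact ⟨hS.trans (Icc_subset_Icc_right (by omega)), hsp⟩
      · refine ⟨insert_subset (mem_Icc.2 (by omega)) (hT.trans (Icc_subset_Icc_right (by omega))),
          fun x hx hx1 => ?_⟩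
        rcases mem_insert.1 hx with rfl | hx
        · rcases mem_insert.1 hx1 with h | h
          · omega
          · have := mem_Icc.1 (hT h); omega
        · rcases mem_insert.1 hx1 with h | h
          · have := mem_Icc.1 (hT hx); omega
          · exact hsp x hx h
  have hnot : ∀ T ∈ sparseSets lo N, N + 2 ∉ T := fun T hT hm => by
    have := mem_Icc.1 (mem_powerset.1 (mem_filter.1 hT).1 hm)
    omega
  rw [sparseSum, hun, sum_union, sum_image, sparseSum, sparseSum, mul_sum]
  · congr 1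
    refine sum_congr rfl fun T hT => ?_
    rw [sum_insert (hnot T hT), pow_add]
  · intro T hT T' hT' h
    rw [← erase_insert (hnot T hT), ← erase_insert (hnot T' hT'), h]
  · rw [disjoint_left]
    intro S hS hS'
    obtain ⟨T, -, rfl⟩ := mem_image.1 hS'
    have := mem_Icc.1 (mem_powerset.1 (mem_filter.1 hS).1 (mem_insert_self _ _))
    omega

/-- **Schur's formula.** -/
theorem sparseSum_eq {lo : ℕ} {a : ℤ} (h : lo = 1 ∧ a = 0 ∨ lo = 2 ∧ a = 2) {M : ℕ} :
    ∀ n : ℕ, n + 1 ≤ M → sparseSum lo n = closedForm M a (n + 1) := by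
  have ha : a = 0 ∨ a = 2 := by omega
  intro n
  induction n using Nat.strong_induction_on with
  | _ n ih =>
    intro hM
    match n with
    | 0 =>
      rw [closedForm_small ha (by omega) le_rfl, sparseSum, sparseSets,
        Icc_eq_empty (by omega), powerset_empty]
      rcases h with ⟨-, rfl⟩ | ⟨-, rfl⟩ <;> simp [filter_singleton, qb]
    | 1 =>
      rw [closedForm_small ha le_rfl (by omega), sparseSum, sparseSets]
      rcases h with ⟨rfl, rfl⟩ | ⟨rfl, rfl⟩
      · rw [Icc_self, show ({1} : Finset ℕ).powerset = {∅, {1}} from rfl]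
        simp [filter_insert, filter_singleton, qb]
      · rw [Icc_eq_empty (by omega), powerset_empty]
        simp [filter_singleton, qb]
    | k + 2 =>
      rw [sparseSum_step (by omega), ih (k + 1) (by omega) (by omega), ih k (by omega) (by omega),
        closedForm_step ha (N := k + 1) (by omega)]

end FA.RogersRamanujan

end
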