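import Fermat.Agent.RogersRamanujan.Schur

/-!
# The finite triple product
-/

set_option autoImplicit false

noncomputable section

open Finset
open PowerSeries (X)

namespace FA.RogersRamanujan

/-- The residues `0`, `± (a + 2)` modulo `5`. -/
abbrev exc (a m : ℕ) : Prop := m % 5 = 0 ∨ m % 5 = a + 2 ∨ m % 5 = 3 - a

theorem two_mul_choose_two_add (k : ℕ) : 2 * k.choose 2 + k = k * k := by
  induction k with
  | zero => rfl
  | succ k ih =>
    rw [Nat.choose_succ_succ', Nat.choose_one_right]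
    linarith

theorem two_mul_sum_add (s L : ℕ) :
    2 * (∑ i ∈ range L, (s + 5 * i)) + 5 * L = 2 * s * L + 5 * L * L := by
  induction L with
  | zero => simp
  | succ L ih =>
    rw [sum_range_succ]
    linarith

/-- The finite form of the triple product of Jacobi, in the two cases needed. -/
theorem triple_product {a : ℕ} (ha : a = 0 ∨ a = 2) (L : ℕ) :
    ∏ i ∈ range L, ((1 - X ^ (5 * i + (3 - a))) * (1 - X ^ (5 * i + (a + 2)))) =
      ∑ k ∈ range (2 * L + 1), weight (a : ℤ) ((L : ℤ) - k) *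
        qb (X ^ 5 : PowerSeries ℤ) (2 * L) k := by
  have h1 : ∏ i ∈ range L, (-X ^ (5 * L) + X ^ (a + 2) * ((X : PowerSeries ℤ) ^ 5) ^ i) =
      X ^ (∑ i ∈ range L, (a + 2 + 5 * i)) * ∏ i ∈ range L, (1 - X ^ (5 * i + (3 - a))) := by
    rw [← prod_pow_eq_pow_sum,
      ← prod_range_reflect (fun i => (X : PowerSeries ℤ) ^ (a + 2 + 5 * i)),
      ← prod_mul_distrib, ← prod_range_reflect]
    refine prod_congr rfl fun i hi => ?_
    obtain ⟨d, rfl⟩ := Nat.exists_eq_add_of_le (Nat.succ_le_of_lt (mem_range.1 hi))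
    rw [show i + 1 + d - 1 - i = d by omega, ← pow_mul, ← pow_add,
      show 5 * (i + 1 + d) = (a + 2 + 5 * d) + (5 * i + (3 - a)) by omega,
      pow_add _ (a + 2 + 5 * d)]
    ring
  have h2 : ∏ i ∈ range L, (-X ^ (5 * L) + X ^ (a + 2) * ((X : PowerSeries ℤ) ^ 5) ^ (L + i)) =
      (-X ^ (5 * L)) ^ L * ∏ i ∈ range L, (1 - X ^ (5 * i + (a + 2))) := by
    conv_rhs =>
      arg 1
      rw [← card_range L, ← prod_const]
    rw [← prod_mul_distrib, card_range]
    exact prod_congr rfl fun i _ => by ring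
  have h := prod_add_mul_pow ((X : PowerSeries ℤ) ^ 5) (-X ^ (5 * L)) (X ^ (a + 2)) (2 * L)
  rw [two_mul, prod_range_add, h1, h2, ← two_mul] at h
  set E := (∑ i ∈ range L, (a + 2 + 5 * i)) + 5 * L * L with hE
  have hC : ((-1 : PowerSeries ℤ) ^ L * X ^ E) ≠ 0 :=
    mul_ne_zero (pow_ne_zero _ (by norm_num)) (pow_ne_zero _ PowerSeries.X_ne_zero)
  refine mul_left_cancel₀ hC ?_
  rw [prod_mul_distrib, mul_sum]
  refine Eq.trans ?_ (h.trans (sum_congr rfl fun k hk => ?_))
  · rw [neg_pow (X ^ (5 * L) : PowerSeries ℤ), ← pow_mul, hE, pow_add]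
    ring
  obtain ⟨d, hd⟩ := Nat.exists_eq_add_of_le (Nat.lt_succ_iff.1 (mem_range.1 hk))
  have hs : (-1 : PowerSeries ℤ) ^ d =
      (-1) ^ L * (if ((L : ℤ) - k) % 2 = 0 then 1 else -1) := by
    rcases Int.emod_two_eq_zero_or_one ((L : ℤ) - k) with hp | hp
    · rw [if_pos hp, mul_one, neg_one_pow_eq_pow_mod_two, neg_one_pow_eq_pow_mod_two (n := L),
        show d % 2 = L % 2 by omega]
    · rw [if_neg (by omega), ← pow_succ, neg_one_pow_eq_pow_mod_two,
        neg_one_pow_eq_pow_mod_two (n := L + 1), show d % 2 = (L + 1) % 2 by omega]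
  have he : 5 * k.choose 2 + (a + 2) * k + 5 * L * d = E + expo (a : ℤ) ((L : ℤ) - k) := by
    have e1 := two_mul_choose_two_add k
    have e2 := two_mul_sum_add (a + 2) L
    have e3 := two_mul_expo (a := (a : ℤ)) (by omega) ((L : ℤ) - k)
    zify at e1 e2 hd ⊢
    rw [hE]
    push_cast at e1 e2 hd ⊢
    have : (2 : ℤ) * (5 * (k.choose 2 : ℤ) + ((a : ℤ) + 2) * k + 5 * L * d) =
        2 * ((∑ i ∈ range L, ((a : ℤ) + 2 + 5 * i)) + 5 * L * L + expo (a : ℤ) ((L : ℤ) - k)) := by
      linear_combination 5 * e1 - e2 - e3 - 10 * (L : ℤ) * hd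
    linarith
  rw [show 2 * L - k = d by omega, ← pow_mul, ← pow_mul, neg_pow (X ^ (5 * L) : PowerSeries ℤ),
    ← pow_mul, hs, weight]
  calc X ^ (5 * k.choose 2) * qb (X ^ 5 : PowerSeries ℤ) (2 * L) k * X ^ ((a + 2) * k) *
        ((-1) ^ L * (if ((L : ℤ) - k) % 2 = 0 then 1 else -1) * X ^ (5 * L * d))
      = (-1) ^ L * (if ((L : ℤ) - k) % 2 = 0 then 1 else -1) *
          X ^ (5 * k.choose 2 + (a + 2) * k + 5 * L * d) * qb (X ^ 5) (2 * L) k := by ring
    _ = _ := by rw [he, pow_add]; ring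

/-- Multiplying by `(1 - X ^ 5) (1 - X ^ 10) ⋯` fills in the class of `0`. -/
theorem poch_mul_prod {a : ℕ} (ha : a = 0 ∨ a = 2) (L : ℕ) :
    poch (X ^ 5 : PowerSeries ℤ) L *
        ∏ i ∈ range L, ((1 - X ^ (5 * i + (3 - a))) * (1 - X ^ (5 * i + (a + 2)))) =
      cprod (exc a) (5 * L) := by
  induction L with
  | zero => simp [poch, cprod]
  | succ L ih =>
    rw [poch_succ, prod_range_succ, show 5 * (L + 1) = 5 * L + 1 + 1 + 1 + 1 + 1 by ring, cprod,
      prod_range_succ, prod_range_succ, prod_range_succ, prod_range_succ, prod_range_succ,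
      mul_mul_mul_comm, ih, cprod]
    rcases ha with rfl | rfl
    · rw [if_neg (by simp only [exc]; omega), if_pos (by simp only [exc]; omega),
        if_pos (by simp only [exc]; omega), if_neg (by simp only [exc]; omega),
        if_pos (by simp only [exc]; omega)]
      norm_num
      ring
    · rw [if_pos (by simp only [exc]; omega), if_neg (by simp only [exc]; omega),
        if_neg (by simp only [exc]; omega), if_pos (by simp only [exc]; omega),
        if_pos (by simp only [exc]; omega)]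
      norm_num
      ring

end FA.RogersRamanujan

end
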